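import Fermat.Agent.H84.ORD.NodalSpecA
import Fermat.Agent.H66.ORD.RangeMul
import Fermat.Agent.H89.ESDA3
import Fermat.Agent.H29.ResidueConst

/-!
# P-ORD, block B1, row B1-D-SURJ (helper54): the places of the residue field have degree one

`k` the residue field of `A` (over `p`, `p ∤ M`), `F̄ = NmF (M p) A` the residue field of the
Gauss valuation of level `M p`.  `F̄` is contained in the function field of level `M` over `k`
(helper66 `gaussRange_mul`), a function field of one variable (helper89 `ffModLStatement`),
hence every element of the valuation ring of a place `Q` of `F̄ / k` is congruent to a constant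
(`nm_exists_const`).
-/

set_option autoImplicit false
set_option linter.unusedSectionVars false
set_option linter.style.haveILetI false
set_option synthInstance.maxHeartbeats 400000

noncomputable section

open AlgebraicCurve ModularCurve IntermediateField
open scoped IntermediateField.algebraAdjoinAdjoin

namespace Fermat.Agent.H54.ORD

open Fermat.Agent.H72.FF Fermat.Agent.H66 Fermat.Agent.H84.ORD

/-- a subfield of a function field of one variable is algebraic over `k(z)`, `z` transcendental -/
theorem isAlgebraic_adjoin_of_algHom {k E E' : Type} [Field k] [Field E] [Field E']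
    [Algebra k E] [Algebra k E'] (ι : E →ₐ[k] E') (x : E') [Algebra.IsAlgebraic k⟮x⟯ E']
    {z : E} (hz : Transcendental k z) : Algebra.IsAlgebraic k⟮z⟯ E := by
  have h1 : Algebra.IsAlgebraic (Algebra.adjoin k {x}) E' :=
    Algebra.IsAlgebraic.trans (Algebra.adjoin k {x}) k⟮x⟯ E'
  have h2 : Algebra.trdeg k E' ≤ Cardinal.mk ({x} : Set E') :=
    Algebra.IsAlgebraic.trdeg_le_cardinalMk k ({x} : Set E')
  have h3 : Cardinal.mk ({x} : Set E') = 1 := by simp
  have h4 : Algebra.trdeg k E ≤ 1 :=
    (trdeg_le_of_injective ι (RingHom.injective ι.toRingHom)).trans (h3 ▸ h2)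
  let w : PUnit → E := fun _ => z
  have hw : AlgebraicIndependent k w := algebraicIndependent_unique_type_iff.mpr hz
  have hb : IsTranscendenceBasis k w :=
    hw.isTranscendenceBasis_of_trdeg_le_of_finite (by simpa using h4)
  have h5 := hb.isAlgebraic_field
  have h6 : Set.range w = {z} := by
    ext a; simp [w, eq_comm]
  rw [h6] at h5
  exact h5

section

variable (M p : ℕ) [NeZero M] [NeZero p] (A : ValuationSubring Qb)

theorem nmResField_le (hp : p.Prime) (hpM : ¬ p ∣ M) (hA : A.LiesOverPrime p) :
    nmResField (M * p) A ≤ modularFunctionFieldFullC (kRes A) M := by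
  rintro z ⟨u, rfl⟩
  exact Fermat.Agent.H66.ORD.gaussRange_mul M p hp hpM A hA u

/-- the inclusion of the residue field of the Gauss valuation of level `M p` into the function
field of level `M` over `k` -/
def nmIncl (hp : p.Prime) (hpM : ¬ p ∣ M) (hA : A.LiesOverPrime p) :
    NmF (M * p) A →ₐ[kRes A] ↥(modularFunctionFieldFullC (kRes A) M) where
  toFun z := ⟨(z : LaurentSeries (kRes A)), nmResField_le M p A hp hpM hA z.2⟩
  map_one' := rfl
  map_mul' _ _ := rfl
  map_zero' := rfl
  map_add' _ _ := rfl
  commutes' _ := rfl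

/-- **the places of `F̄` have degree one** : every element of the valuation ring of `Q` is
congruent to (the reduction of) a constant of `A`. -/
theorem nm_exists_const (hp : p.Prime) (hpM : ¬ p ∣ M) (hA : A.LiesOverPrime p)
    (Q : Place (kRes A) (NmF (M * p) A)) {z : NmF (M * p) A}
    (hz : z ∈ Q.toValuationSubring) :
    ∃ (c : Qb) (hc : c ∈ A),
      z - algebraMap (kRes A) (NmF (M * p) A) (IsLocalRing.residue A ⟨c, hc⟩) ∈
        Q.toValuationSubring.nonunits := by
  haveI : Fact p.Prime := ⟨hp⟩
  obtain ⟨hk, x, hx, hfin, -⟩ := Fermat.Agent.H89.ffModLStatement M p hpM A hA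
  haveI := hk
  haveI := hfin
  haveI : Algebra.IsAlgebraic (kRes A)⟮x⟯ ↥(modularFunctionFieldFullC (kRes A) M) :=
    Algebra.IsAlgebraic.of_finite _ _
  -- a transcendental element of `F̄`
  have hx' : (x : LaurentSeries (kRes A)) ∈ modularFunctionFieldFullC (kRes A) (M * p) := by
    rw [Fermat.Agent.H66.ORD.fullC_mul_eq M p hp hpM A hA]
    exact x.2
  obtain ⟨u, hu⟩ := Fermat.Agent.H66.gaussSurj (M * p) p A hA _ hx'
  set z₀ : NmF (M * p) A := nmRedOo (M * p) A u with hz₀
  have hz₀x : nmIncl M p A hp hpM hA z₀ = x := Subtype.ext hu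
  have hz₀tr : Transcendental (kRes A) z₀ := by
    intro halg
    apply hx
    rw [← hz₀x]
    exact halg.algHom (nmIncl M p A hp hpM hA)
  haveI : Algebra.IsAlgebraic (kRes A)⟮z₀⟯ (NmF (M * p) A) :=
    isAlgebraic_adjoin_of_algHom (nmIncl M p A hp hpM hA) x hz₀tr
  obtain ⟨cbar, hcbar⟩ := Fermat.Agent.H29.place_exists_const_sub (y := z₀) Q hz
  obtain ⟨c, rfl⟩ := IsLocalRing.residue_surjective cbar
  refine ⟨(c : Qb), c.2, ?_⟩
  rw [ValuationSubring.mem_nonunits_iff_exists_mem_maximalIdeal]
  have hmem : z - algebraMap (kRes A) (NmF (M * p) A) (IsLocalRing.residue A c) ∈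
      Q.toValuationSubring := sub_mem hz (Q.algebraMap_mem' _)
  refine ⟨hmem, ?_⟩
  rw [Fermat.Agent.H29.place_mem_maximalIdeal_iff]
  rcases hcbar with h | h
  · left
    show z - _ = 0
    rw [h, sub_self]
  · right
    exact h

end

end Fermat.Agent.H54.ORD
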