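import Fermat.Agent.H54.ORD.SurjCore
import Fermat.Agent.H54.ORD.SurjResidue
import Fermat.Agent.H20.ORD.NmSoft
import Fermat.Agent.H23.Final3
import Fermat.Agent.H16.FFBasic

/-!
# P-ORD, block B1, row B1-D-SURJ (helper54, row 1159)

`nmSurjOo M p : NmSurjOoStatement M p`, `nmSurjZero M p : NmSurjZeroStatement M p` :
every place `Q` of the residue field `F_∞ = F_0` of the Gauss valuations of `ℚ̄(X₀(M p))` lies
over the centre of a place `P` of `ℚ̄(X₀(M p))`.

Proof (`nm_surj_generic`, the same for both components).  Let `(V, red)` be one of the two Gauss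
rings.  The chart `y` is `j` if `red j ∈ O_Q` and `j⁻¹` otherwise; `red y ≡ c̄ mod 𝔪_Q` with
`c ∈ A` (`nm_exists_const` : the places of `F̄` have degree one).  The composite of `V` and `O_Q`
contains the chart `B̄(y)` (it is integrally closed) and its centre `n` on `B̄(y)` is a prime
containing `𝔪_A` and `y - c`.  GOING DOWN for `B̄(y) / A[y]` (`A[y] ≅ A[X]` is integrally closed)
gives a prime `q ⊆ n` over `(y - c) A[y]`; a valuation ring dominating `B̄(y)_q` is a place `P` of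
`F / ℚ̄` with `y(P) = c` and `𝔪_P ∩ B̄(y) = q ⊆ n` (`surj_main`).  Hence the chart of `P` is `y`
and the centre of `P` is contained in `n`.
-/

set_option autoImplicit false
set_option linter.unusedSectionVars false
set_option linter.style.haveILetI false
set_option synthInstance.maxHeartbeats 400000

noncomputable section

open AlgebraicCurve ModularCurve IntermediateField

namespace Fermat.Agent.H54.ORD

open Fermat.Agent.H72.FF Fermat.Agent.H18.ORD Fermat.Agent.H66 Fermat.Agent.H84.ORD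

section J

variable (N : ℕ) [NeZero N] (A : ValuationSubring Qb)

theorem nmJ_eq_jBar : nmJ N = Fermat.Agent.H23.jBar N := Fermat.Agent.H83.jBarD_one N

theorem nmJ_transcendental : Transcendental Qb (nmJ N) := by
  rw [nmJ_eq_jBar]
  exact (Fermat.Agent.H23.degreeStatement_holds N).1

theorem nmJ_ne_zero : nmJ N ≠ 0 := by
  intro h
  apply nmJ_transcendental N
  rw [h]
  exact isAlgebraic_zero

theorem nmJ_inv_transcendental : Transcendental Qb (nmJ N)⁻¹ := by
  intro h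
  apply nmJ_transcendental N
  have := h.inv
  rwa [inv_inv] at this

theorem nmJ_finiteDimensional : FiniteDimensional Qb⟮nmJ N⟯ (FLb N) := by
  haveI : FiniteDimensional Qb⟮Fermat.Agent.H23.jBar N⟯ (FLb N) :=
    (Fermat.Agent.H23.degreeStatement_holds N).2.1
  exact Fermat.Agent.H16.ffb_finiteDimensional_of_transcendental (Fermat.Agent.H23.jBar N)
    (nmJ N) (nmJ_transcendental N)

theorem nmJ_inv_finiteDimensional : FiniteDimensional Qb⟮(nmJ N)⁻¹⟯ (FLb N) := by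
  haveI : FiniteDimensional Qb⟮Fermat.Agent.H23.jBar N⟯ (FLb N) :=
    (Fermat.Agent.H23.degreeStatement_holds N).2.1
  exact Fermat.Agent.H16.ffb_finiteDimensional_of_transcendental (Fermat.Agent.H23.jBar N)
    (nmJ N)⁻¹ (nmJ_inv_transcendental N)

theorem jBarD_mem_gaussOBar (d : ℕ) [NeZero d] (hd : d ∣ N) :
    Fermat.Agent.H23.jBarD N d hd ∈ gaussOBar N A := by
  have h : qExpand Qb d (jqModC Qb) = coeffEmb Qb (qExpand ℚ d jq) := by
    rw [coeffEmb, coeffMap_qExpand, ← jqModC_rat, coeffMap_jqModC]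
  apply mem_gaussOBar_of_eq_vIota N A (Y := qExpand ↥A d (jqModC ↥A))
  show coeffEmb Qb (qExpand ℚ d jq) = _
  rw [← h]
  exact qExpand_jqModC_eq_vIota A d

theorem nmJ_mem_gaussOBar : nmJ N ∈ gaussOBar N A :=
  jBarD_mem_gaussOBar N A 1 (one_dvd N)

end J

section Generic

variable (M p : ℕ) [NeZero M] [NeZero p] (A : ValuationSubring Qb)

theorem nmJ_mem_nmV0 (hcop : Nat.Coprime M p) : nmJ (M * p) ∈ nmV0 M p hcop A := by
  rw [mem_nmV0_iff]
  obtain ⟨d'', hd''0, hd'', h1, -⟩ := (nmW_spec M p hcop).1 1 inferInstance (one_dvd _)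
  haveI := hd''0
  have h2 : nmW M p hcop (nmJ (M * p)) = Fermat.Agent.H23.jBarD (M * p) d'' hd'' := h1
  rw [h2]
  exact jBarD_mem_gaussOBar (M * p) A d'' hd''

/-- transport of the reduction along an equality of elements -/
theorem sj_red_congr {F Fbar : Type} [Field F] [Field Fbar] {V : Subring F} (red : ↥V →+* Fbar)
    {x y : F} (hx : x ∈ V) (h : x = y) : ∃ hy : y ∈ V, red ⟨y, hy⟩ = red ⟨x, hx⟩ := by
  subst h
  exact ⟨hx, rfl⟩

/-- **SURJ, generic form** : for a Gauss ring `(V, red)` of `F = ℚ̄(X₀(M p))` with residue field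
`F̄`, every place `Q` of `F̄` lies over the centre of a place of `F`. -/
theorem nm_surj_generic (hS : NmSetup M p A)
    (V : Subring (FLb (M * p))) (red : ↥V →+* NmF (M * p) A)
    (hconst : ∀ c : Qb, algebraMap Qb (FLb (M * p)) c ∈ V ↔ c ∈ A)
    (hredc : ∀ (c : A) (hc : algebraMap Qb (FLb (M * p)) (c : Qb) ∈ V),
      red ⟨_, hc⟩ = algebraMap (kRes A) (NmF (M * p) A) (IsLocalRing.residue A c))
    (hnorm : ∀ φ : FLb (M * p), φ ≠ 0 → ∃ (c : Qb) (u : V), c ≠ 0 ∧ red u ≠ 0 ∧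
      φ = algebraMap Qb (FLb (M * p)) c * (u : FLb (M * p)))
    (hinv : ∀ u : V, red u ≠ 0 → (u : FLb (M * p))⁻¹ ∈ V)
    (hj : nmJ (M * p) ∈ V)
    (Q : Place (kRes A) (NmF (M * p) A)) :
    ∃ P : Place Qb (FLb (M * p)), ∀ f ∈ nmCentre A P, ∀ h : f ∈ V,
      red ⟨f, h⟩ ∈ Q.toValuationSubring.nonunits := by
  classical
  have hpM : ¬ p ∣ M := (Nat.Prime.coprime_iff_not_dvd hS.prime).1 hS.cop.symm
  -- `V` is a valuation ring, hence integrally closed
  have hmem_or : ∀ f : FLb (M * p), f ∈ V ∨ f⁻¹ ∈ V := by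
    intro f
    by_cases hf : f = 0
    · left
      rw [hf]
      exact V.zero_mem
    obtain ⟨c, u, hc0, hu, hfu⟩ := hnorm f hf
    rcases A.mem_or_inv_mem c with hc | hc
    · left
      rw [hfu]
      exact V.mul_mem ((hconst c).2 hc) u.2
    · right
      rw [hfu, mul_inv, ← map_inv₀]
      exact V.mul_mem ((hconst _).2 hc) (hinv u hu)
  let Vv : ValuationSubring (FLb (M * p)) := { V with mem_or_inv_mem' := hmem_or }
  have hVint : ∀ f : FLb (M * p), V.subtype.IsIntegralElem f → f ∈ V := by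
    intro f hf
    have h1 : IsIntegral ↥Vv f := hf
    obtain ⟨a, ha⟩ := IsIntegrallyClosed.isIntegral_iff.mp h1
    rw [← ha]
    exact a.2
  have hAV : ∀ a ∈ A, ∃ h : algebraMap Qb (FLb (M * p)) a ∈ V,
      red ⟨_, h⟩ ∈ Q.toValuationSubring := fun a ha =>
    ⟨(hconst a).2 ha, by rw [hredc ⟨a, ha⟩]; exact Q.algebraMap_mem' _⟩
  have hAm : ∀ a ∈ A.nonunits, ∃ h : algebraMap Qb (FLb (M * p)) a ∈ V, red ⟨_, h⟩ = 0 := by
    intro a ha
    rw [ValuationSubring.mem_nonunits_iff_exists_mem_maximalIdeal] at ha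
    obtain ⟨haA, hm⟩ := ha
    refine ⟨(hconst a).2 haA, ?_⟩
    rw [hredc ⟨a, haA⟩, (IsLocalRing.residue_eq_zero_iff _).2 hm, map_zero]
  by_cases hjQ : red ⟨nmJ (M * p), hj⟩ ∈ Q.toValuationSubring
  · -- the chart `j`
    obtain ⟨c, hc, hcz⟩ := nm_exists_const M p A hS.prime hpM hS.liesOver Q hjQ
    haveI := nmJ_finiteDimensional (M * p)
    have hyc : ∃ h : nmJ (M * p) - algebraMap Qb (FLb (M * p)) c ∈ V,
        red ⟨_, h⟩ ∈ Q.toValuationSubring.nonunits := by
      refine ⟨V.sub_mem hj ((hconst c).2 hc), ?_⟩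
      have e : (⟨nmJ (M * p) - algebraMap Qb (FLb (M * p)) c,
          V.sub_mem hj ((hconst c).2 hc)⟩ : ↥V) =
          ⟨nmJ (M * p), hj⟩ - ⟨algebraMap Qb (FLb (M * p)) c, (hconst c).2 hc⟩ := rfl
      rw [e, map_sub, hredc ⟨c, hc⟩]
      exact hcz
    obtain ⟨P, hP1, hP2⟩ := surj_main A (nmJ (M * p)) (nmJ_transcendental (M * p))
      (nmChart (M * p) A (nmJ (M * p))) (fun f => mem_nmChart_iff (M * p) A _ f)
      V red Q.toValuationSubring hVint hAV hAm ⟨hj, hjQ⟩ hc hyc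
    refine ⟨P, ?_⟩
    have hY : nmY A P = nmJ (M * p) := by
      rw [nmY, if_pos]
      exact ⟨c, hc, (nm_hasValue_iff P).2 hP1⟩
    intro f hf h
    rw [mem_nmCentre_iff, hY] at hf
    obtain ⟨hfS, c', hc', hfc'⟩ := hf
    exact hP2 f hfS c' hc' ((nm_hasValue_iff P).1 hfc') h
  · -- the chart `j⁻¹`
    have hrj0 : red ⟨nmJ (M * p), hj⟩ ≠ 0 := fun h => hjQ (h ▸ zero_mem _)
    have hj0 : nmJ (M * p) ≠ 0 := nmJ_ne_zero (M * p)
    have hjinv : (nmJ (M * p))⁻¹ ∈ V := hinv ⟨_, hj⟩ hrj0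
    have hredinv : red ⟨(nmJ (M * p))⁻¹, hjinv⟩ = (red ⟨nmJ (M * p), hj⟩)⁻¹ := by
      have h1 : (⟨(nmJ (M * p))⁻¹, hjinv⟩ : ↥V) * ⟨nmJ (M * p), hj⟩ = 1 :=
        Subtype.ext (inv_mul_cancel₀ hj0)
      have h2 := congrArg red h1
      rw [map_mul, map_one] at h2
      exact eq_inv_of_mul_eq_one_left h2
    have hnon : red ⟨(nmJ (M * p))⁻¹, hjinv⟩ ∈ Q.toValuationSubring.nonunits := by
      rw [hredinv, ValuationSubring.mem_nonunits_iff, map_inv₀]
      have h1 : 1 < Q.toValuationSubring.valuation (red ⟨nmJ (M * p), hj⟩) :=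
        lt_of_not_ge (fun h => hjQ ((ValuationSubring.valuation_le_one_iff _ _).1 h))
      exact inv_lt_one_of_one_lt₀ h1
    have e : (nmJ (M * p))⁻¹ - algebraMap Qb (FLb (M * p)) 0 = (nmJ (M * p))⁻¹ := by
      rw [map_zero, sub_zero]
    have hyc : ∃ h : (nmJ (M * p))⁻¹ - algebraMap Qb (FLb (M * p)) 0 ∈ V,
        red ⟨_, h⟩ ∈ Q.toValuationSubring.nonunits := by
      obtain ⟨h1, h2⟩ := sj_red_congr red hjinv e.symm
      exact ⟨h1, h2 ▸ hnon⟩
    haveI := nmJ_inv_finiteDimensional (M * p)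
    obtain ⟨P, hP1, hP2⟩ := surj_main A (nmJ (M * p))⁻¹ (nmJ_inv_transcendental (M * p))
      (nmChart (M * p) A (nmJ (M * p))⁻¹) (fun f => mem_nmChart_iff (M * p) A _ f)
      V red Q.toValuationSubring hVint hAV hAm
      ⟨hjinv, ValuationSubring.nonunits_subset hnon⟩ A.zero_mem hyc
    rw [e] at hP1
    refine ⟨P, ?_⟩
    have hY : nmY A P = (nmJ (M * p))⁻¹ := by
      rw [nmY, if_neg]
      rintro ⟨c', hc', hv⟩
      have h1 := nmv_le_one_of_hasValue P hv
      have h2 : nmv P (nmJ (M * p))⁻¹ < 1 := (nmv_lt_one_iff P).2 hP1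
      rw [map_inv₀] at h2
      have h3 : nmv P (nmJ (M * p)) ≠ 0 := (Valuation.ne_zero_iff _).2 hj0
      have h4 : 1 ≤ (nmv P (nmJ (M * p)))⁻¹ :=
        (one_le_inv₀ (zero_lt_iff.2 h3)).2 h1
      exact absurd h2 (not_lt.2 h4)
    intro f hf h
    rw [mem_nmCentre_iff, hY] at hf
    obtain ⟨hfS, c', hc', hfc'⟩ := hf
    exact hP2 f hfS c' hc' ((nm_hasValue_iff P).1 hfc') h

end Generic

/-- **[SURJ], component `∞`** (row 1159). -/
theorem nmSurjOo (M p : ℕ) [NeZero M] [NeZero p] : NmSurjOoStatement M p := by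
  intro A hS Q
  obtain ⟨h1, -, h3, -, h5, -, h7, -, -⟩ := Fermat.Agent.H20.ORD.nmSoft M p A hS
  exact nm_surj_generic M p A hS (gaussOBar (M * p) A) (nmRedOo (M * p) A) h1 h3 h5 h7
    (nmJ_mem_gaussOBar (M * p) A) Q

/-- **[SURJ], component `0`** (row 1159). -/
theorem nmSurjZero (M p : ℕ) [NeZero M] [NeZero p] : NmSurjZeroStatement M p := by
  intro A hS Q
  obtain ⟨-, h2, -, h4, -, h6, -, h8, -⟩ := Fermat.Agent.H20.ORD.nmSoft M p A hS
  exact nm_surj_generic M p A hS (nmV0 M p hS.cop A) (nmRed0 M p hS.cop A) h2 h4 h6 h8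
    (nmJ_mem_nmV0 M p A hS.cop) Q

end Fermat.Agent.H54.ORD
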