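import Fermat.Agent.H54.ORD.SurjPlace

/-!
# P-ORD, block B1, row B1-D-SURJ (helper54): abstract part III - the core

`surj_core` : a prime `n` of the integral closure `S` of `A[y]` containing `y - c` is the
specialisation of a place `P` of `F / K` with `y(P) = c` : `𝔪_P ∩ S ⊆ n`.

`surj_main` : the same with `n` the centre on `S` of the composite of a "Gauss ring"
`(V, red : V → F̄)` and a valuation ring `O_Q` of `F̄`.
-/

set_option autoImplicit false
set_option linter.unusedSectionVars false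
set_option linter.style.haveILetI false

noncomputable section

open Polynomial AlgebraicCurve IntermediateField

namespace Fermat.Agent.H54.ORD

variable {K F : Type} [Field K] [Field F] [Algebra K F]

theorem surj_core [CharZero K] (A : ValuationSubring K) (y : F)
    (hy : Transcendental K y) [FiniteDimensional K⟮y⟯ F]
    (S : Subring F) (hS : ∀ f : F, f ∈ S ↔ (sjPoly A y).subtype.IsIntegralElem f)
    (n : Ideal ↥S) [n.IsPrime] {c : K} (hc : c ∈ A)
    (hn : ∀ h : y - algebraMap K F c ∈ S, (⟨_, h⟩ : ↥S) ∈ n) :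
    ∃ P : Place K F, y - algebraMap K F c ∈ P.toValuationSubring.nonunits ∧
      ∀ (f : F) (hf : f ∈ S), f ∈ P.toValuationSubring.nonunits → (⟨f, hf⟩ : ↥S) ∈ n := by
  obtain ⟨q, hqprime, hqn, hq1, hq2⟩ := exists_horizontal_prime hy S hS n hc hn
  have hRS : sjPoly A y ≤ S := sjPoly_le hS
  have hAS : ∀ a ∈ A, algebraMap K F a ∈ S := fun a ha => hRS (algebraMap_mem_sjPoly A y ha)
  have hyS : y ∈ S := hRS (self_mem_sjPoly A y)
  obtain ⟨P, hP⟩ := exists_place_of_prime A y hy S hAS hyS q hc hq1 hq2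
  refine ⟨P, ?_, fun f hf hfP => hqn ((hP f hf).1 hfP)⟩
  have h1 : y - algebraMap K F c ∈ S := sub_mem hyS (hAS c hc)
  exact (hP _ h1).2 (hq1 h1)

theorem surj_main [CharZero K] (A : ValuationSubring K) (y : F)
    (hy : Transcendental K y) [FiniteDimensional K⟮y⟯ F]
    (S : Subring F) (hS : ∀ f : F, f ∈ S ↔ (sjPoly A y).subtype.IsIntegralElem f)
    {Fbar : Type} [Field Fbar]
    (V : Subring F) (red : ↥V →+* Fbar) (OQ : ValuationSubring Fbar)
    (hVint : ∀ f : F, V.subtype.IsIntegralElem f → f ∈ V)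
    (hAV : ∀ a ∈ A, ∃ h : algebraMap K F a ∈ V, red ⟨_, h⟩ ∈ OQ)
    (hAm : ∀ a ∈ A.nonunits, ∃ h : algebraMap K F a ∈ V, red ⟨_, h⟩ = 0)
    (hyV : ∃ h : y ∈ V, red ⟨y, h⟩ ∈ OQ)
    {c : K} (hc : c ∈ A)
    (hyc : ∃ h : y - algebraMap K F c ∈ V, red ⟨_, h⟩ ∈ OQ.nonunits) :
    ∃ P : Place K F, y - algebraMap K F c ∈ P.toValuationSubring.nonunits ∧
      ∀ f ∈ S, ∀ c' ∈ A.nonunits, f - algebraMap K F c' ∈ P.toValuationSubring.nonunits →
        ∀ h : f ∈ V, red ⟨f, h⟩ ∈ OQ.nonunits := by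
  classical
  -- the composite ring `V' = {f ∈ V | red f ∈ O_Q}`
  let V' : Subring F := (OQ.toSubring.comap red).map V.subtype
  have hV'mem : ∀ f : F, f ∈ V' ↔ ∃ h : f ∈ V, red ⟨f, h⟩ ∈ OQ := by
    intro f
    constructor
    · rintro ⟨v, hv, rfl⟩
      exact ⟨v.2, hv⟩
    · rintro ⟨h, hf⟩
      exact ⟨⟨f, h⟩, hf, rfl⟩
  have hV'V : V' ≤ V := fun f hf => ((hV'mem f).1 hf).1
  have hRV' : sjPoly A y ≤ V' := by
    rw [sjPoly, Subring.closure_le]
    rintro x (⟨a, ha, rfl⟩ | hx)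
    · exact (hV'mem _).2 (hAV a ha)
    · rw [Set.mem_singleton_iff] at hx
      rw [hx]
      exact (hV'mem _).2 hyV
  -- `V'` is integrally closed in `F`
  have hV'int : ∀ f : F, V'.subtype.IsIntegralElem f → f ∈ V' := by
    rintro f ⟨p, hp, hpf⟩
    have hfV : f ∈ V := by
      apply hVint
      refine ⟨p.map (Subring.inclusion hV'V), hp.map _, ?_⟩
      rw [eval₂_map]
      exact hpf
    refine (hV'mem f).2 ⟨hfV, ?_⟩
    -- `red f` is integral over `O_Q`
    let ρ : ↥V' →+* ↥OQ :=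
      (red.comp (Subring.inclusion hV'V)).codRestrict OQ.toSubring
        (fun v => ((hV'mem _).1 v.2).2)
    have h1 : eval₂ (Subring.inclusion hV'V) (⟨f, hfV⟩ : ↥V) p = 0 := by
      apply Subtype.ext
      have h2 := Polynomial.hom_eval₂ p (Subring.inclusion hV'V) V.subtype ⟨f, hfV⟩
      exact h2.trans hpf
    have h3 : eval₂ (red.comp (Subring.inclusion hV'V)) (red ⟨f, hfV⟩) p = 0 := by
      rw [← Polynomial.hom_eval₂, h1, map_zero]
    have h4 : IsIntegral ↥OQ (red ⟨f, hfV⟩) := by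
      refine ⟨p.map ρ, hp.map _, ?_⟩
      rw [eval₂_map]
      exact h3
    obtain ⟨a, ha⟩ := IsIntegrallyClosed.isIntegral_iff.mp h4
    rw [← ha]
    exact a.2
  have hSV' : S ≤ V' := by
    intro s hs
    apply hV'int
    obtain ⟨p, hp, hps⟩ := (hS s).1 hs
    refine ⟨p.map (Subring.inclusion hRV'), hp.map _, ?_⟩
    rw [eval₂_map]
    exact hps
  have hSV : S ≤ V := hSV'.trans hV'V
  let ψ : ↥S →+* ↥OQ :=
    (red.comp (Subring.inclusion hSV)).codRestrict OQ.toSubring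
      (fun s => ((hV'mem _).1 (hSV' s.2)).2)
  let n : Ideal ↥S := Ideal.comap ψ (IsLocalRing.maximalIdeal ↥OQ)
  haveI hnprime : n.IsPrime := Ideal.comap_isPrime ψ _
  have hnmem : ∀ (f : F) (hf : f ∈ S), (⟨f, hf⟩ : ↥S) ∈ n ↔ red ⟨f, hSV hf⟩ ∈ OQ.nonunits := by
    intro f hf
    rw [ValuationSubring.mem_nonunits_iff_exists_mem_maximalIdeal]
    constructor
    · intro h
      exact ⟨((hV'mem _).1 (hSV' hf)).2, h⟩
    · rintro ⟨_, h⟩
      exact h
  have hn : ∀ h : y - algebraMap K F c ∈ S, (⟨_, h⟩ : ↥S) ∈ n := by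
    intro h
    rw [hnmem]
    obtain ⟨h1, h2⟩ := hyc
    exact h2
  obtain ⟨P, hP1, hP2⟩ := surj_core A y hy S hS n hc hn
  refine ⟨P, hP1, fun f hf c' hc' hfc h => ?_⟩
  have hc'A : c' ∈ A := by
    rw [ValuationSubring.mem_nonunits_iff_exists_mem_maximalIdeal] at hc'
    exact hc'.1
  have hc'S : algebraMap K F c' ∈ S := (sjPoly_le hS) (algebraMap_mem_sjPoly A y hc'A)
  have h1 : f - algebraMap K F c' ∈ S := sub_mem hf hc'S
  have h2 := (hnmem _ h1).1 (hP2 _ h1 hfc)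
  obtain ⟨h3, h4⟩ := hAm c' hc'
  have h5 : (⟨f, h⟩ : ↥V) = ⟨f - algebraMap K F c', hSV h1⟩ + ⟨algebraMap K F c', h3⟩ :=
    Subtype.ext (by simp)
  rw [h5, map_add, h4, add_zero]
  exact h2

end Fermat.Agent.H54.ORD
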