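import Fermat.Agent.H54.ORD.SurjPoly
import Fermat.Prelude.Def_AlgebraicCurve_DivisorClassGroup

/-!
# P-ORD, block B1, row B1-D-SURJ (helper54): abstract part II - the place of a horizontal prime

`K` a field of characteristic `0`, `A` a valuation subring of `K`, `F / K(y)` finite, `y`
transcendental.  `S` a subring of `F` containing `A` and `y`, `q` a prime of `S` containing
`y - c` and no nonzero constant of `A`.  Then there is a place `P` of `F / K` with
`𝔪_P ∩ S = q` (`exists_place_of_prime`).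

Proof: a valuation ring `B` of `F` dominating `S_q` (Mathlib) contains `K` and the integral
closure `T` of `K[y]` in `F`, a Dedekind domain; `B` contains the localisation of `T` at
`𝔪_B ∩ T`, a discrete valuation ring, hence is equal to it.
-/

set_option autoImplicit false
set_option linter.unusedSectionVars false
set_option linter.style.haveILetI false

noncomputable section

open Polynomial AlgebraicCurve IntermediateField IsDedekindDomain
open scoped IntermediateField.algebraAdjoinAdjoin

namespace Fermat.Agent.H54.ORD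

variable {K F : Type} [Field K] [Field F] [Algebra K F]

/-- a valuation subring dominating the localisation of `S` at `q` -/
theorem exists_valuationSubring_dominating (S : Subring F) (q : Ideal ↥S) [q.IsPrime] :
    ∃ B : ValuationSubring F, S ≤ B.toSubring ∧
      ∀ (f : F) (hf : f ∈ S), f ∈ B.nonunits ↔ (⟨f, hf⟩ : ↥S) ∈ q := by
  obtain ⟨B, hle, hloc⟩ := (LocalSubring.ofPrime S q).exists_le_valuationSubring
  have hSB : S ≤ B.toSubring := (LocalSubring.le_ofPrime S q).trans hle
  refine ⟨B, hSB, fun f hf => ?_⟩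
  have hunit : IsUnit (algebraMap ↥S ↥(LocalSubring.ofPrime S q).toSubring ⟨f, hf⟩) ↔
      (⟨f, hf⟩ : ↥S) ∈ q.primeCompl :=
    IsLocalization.AtPrime.isUnit_to_map_iff _ q _
  have hmemB : f ∈ B := hSB hf
  have hnon : f ∈ B.nonunits ↔ ¬ IsUnit (⟨f, hmemB⟩ : ↥B) := by
    rw [ValuationSubring.mem_nonunits_iff_exists_mem_maximalIdeal]
    constructor
    · rintro ⟨h, hm⟩
      exact (IsLocalRing.mem_maximalIdeal _).1 hm
    · intro h
      exact ⟨hmemB, (IsLocalRing.mem_maximalIdeal _).2 h⟩
  rw [hnon]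
  constructor
  · intro h
    by_contra hq
    apply h
    have h1 := hunit.2 hq
    exact h1.map (Subring.inclusion hle)
  · intro hq h
    have h1 : IsUnit (algebraMap ↥S ↥(LocalSubring.ofPrime S q).toSubring ⟨f, hf⟩) :=
      hloc.map_nonunit _ h
    exact (hunit.1 h1) hq

/-- **The place of a horizontal prime.** -/
theorem exists_place_of_prime [CharZero K] (A : ValuationSubring K) (y : F)
    (hy : Transcendental K y) [FiniteDimensional K⟮y⟯ F]
    (S : Subring F) (hAS : ∀ a ∈ A, algebraMap K F a ∈ S) (hyS : y ∈ S)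
    (q : Ideal ↥S) [q.IsPrime] {c : K} (hc : c ∈ A)
    (hq1 : ∀ h : y - algebraMap K F c ∈ S, (⟨_, h⟩ : ↥S) ∈ q)
    (hq2 : ∀ a : K, a ∈ A → a ≠ 0 → ∀ h : algebraMap K F a ∈ S, (⟨_, h⟩ : ↥S) ∉ q) :
    ∃ P : Place K F, ∀ (f : F) (hf : f ∈ S),
      f ∈ P.toValuationSubring.nonunits ↔ (⟨f, hf⟩ : ↥S) ∈ q := by
  classical
  obtain ⟨B, hSB, hB⟩ := exists_valuationSubring_dominating S q
  -- units of `B`
  have hunitB : ∀ (f : F), f ∈ B → f ∉ B.nonunits → f⁻¹ ∈ B := by
    intro f hf hnf
    have hu : IsUnit (⟨f, hf⟩ : ↥B) := by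
      by_contra hu
      apply hnf
      rw [ValuationSubring.mem_nonunits_iff_exists_mem_maximalIdeal]
      exact ⟨hf, (IsLocalRing.mem_maximalIdeal _).2 hu⟩
    obtain ⟨u, hu⟩ := hu
    have h1 : (f : F) * ((↑(u⁻¹ : (↥B)ˣ) : ↥B) : F) = 1 := by
      have h2 := congrArg (fun z : ↥B => (z : F)) u.mul_inv
      simp only [MulMemClass.coe_mul, OneMemClass.coe_one] at h2
      rw [hu] at h2
      exact h2
    rw [← eq_inv_of_mul_eq_one_right h1]
    exact ((↑(u⁻¹ : (↥B)ˣ) : ↥B)).2
  -- `K ⊆ B`
  have hKB : ∀ a : K, algebraMap K F a ∈ B := by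
    intro a
    rcases A.mem_or_inv_mem a with ha | ha
    · exact hSB (hAS a ha)
    · by_cases ha0 : a = 0
      · rw [ha0, map_zero]
        exact B.zero_mem
      have h1 : algebraMap K F a⁻¹ ∈ S := hAS _ ha
      have h2 : algebraMap K F a⁻¹ ∉ B.nonunits := fun h =>
        hq2 a⁻¹ ha (inv_ne_zero ha0) h1 ((hB _ h1).1 h)
      have h3 := hunitB _ (hSB h1) h2
      rwa [map_inv₀, inv_inv] at h3
  -- `y - c`
  have hycS : y - algebraMap K F c ∈ S := sub_mem hyS (hAS c hc)
  have hycB : y - algebraMap K F c ∈ B.nonunits := (hB _ hycS).2 (hq1 hycS)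
  have hyc0 : y - algebraMap K F c ≠ 0 := by
    intro h
    apply hy
    rw [sub_eq_zero.1 h]
    exact isAlgebraic_algebraMap c
  have hBtop : B ≠ ⊤ := by
    intro htop
    have h1 : (y - algebraMap K F c)⁻¹ ∈ B := htop ▸ ValuationSubring.mem_top _
    rw [ValuationSubring.mem_nonunits_iff_exists_mem_maximalIdeal] at hycB
    obtain ⟨h2, h3⟩ := hycB
    apply (IsLocalRing.mem_maximalIdeal _).1 h3
    refine IsUnit.of_mul_eq_one ⟨_, h1⟩ (Subtype.ext ?_)
    show (y - algebraMap K F c) * (y - algebraMap K F c)⁻¹ = 1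
    exact mul_inv_cancel₀ hyc0
  -- the Dedekind domain `T`
  let A' := Algebra.adjoin K {y}
  let e : K[X] ≃ₐ[K] A' := Polynomial.algEquivOfTranscendental K y hy
  have hPIR : IsPrincipalIdealRing A' :=
    IsPrincipalIdealRing.of_surjective e.toRingEquiv.toRingHom e.surjective
  have hDA : IsDedekindDomain A' := inferInstance
  have hcharL : CharZero K⟮y⟯ := charZero_of_injective_algebraMap (algebraMap K K⟮y⟯).injective
  have hsep : Algebra.IsSeparable K⟮y⟯ F := inferInstance
  let T := integralClosure A' F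
  have hDT : IsDedekindDomain T := integralClosure.isDedekindDomain A' K⟮y⟯ F
  have hFT : IsFractionRing T F := integralClosure.isFractionRing_of_finite_extension K⟮y⟯ F
  have hKTF : IsScalarTower K T F := IsScalarTower.of_algebraMap_eq (fun c => rfl)
  have hyB : y ∈ B := hSB hyS
  have hA'B : ∀ a : A', (a : F) ∈ B := by
    intro a
    have ha : (a : F) ∈ Algebra.adjoin K {y} := a.2
    rw [Algebra.adjoin_singleton_eq_range_aeval] at ha
    obtain ⟨p, hp⟩ := ha
    rw [← hp]
    show aeval y p ∈ _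
    rw [Polynomial.aeval_eq_sum_range]
    refine sum_mem (fun i _ => ?_)
    rw [Algebra.smul_def]
    exact mul_mem (hKB _) (pow_mem hyB _)
  have hTB : ∀ t : T, algebraMap T F t ∈ B := by
    intro t
    let ψ : A' →+* ↥B := (algebraMap A' F).codRestrict B.toSubring hA'B
    let _ : Algebra A' ↥B := ψ.toAlgebra
    have : IsScalarTower A' ↥B F := IsScalarTower.of_algebraMap_eq (fun a => rfl)
    have ht : IsIntegral A' (algebraMap T F t) := t.2
    have ht' : IsIntegral ↥B (algebraMap T F t) := ht.tower_top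
    obtain ⟨a, ha⟩ := IsIntegrallyClosed.isIntegral_iff.mp ht'
    rw [← ha]
    exact a.2
  let φ : T →+* ↥B := (algebraMap T F).codRestrict B.toSubring hTB
  let 𝔓 : Ideal T := Ideal.comap φ (IsLocalRing.maximalIdeal ↥B)
  have h𝔓mem : ∀ t : T, t ∈ 𝔓 ↔ algebraMap T F t ∈ B.nonunits := by
    intro t
    rw [ValuationSubring.mem_nonunits_iff_exists_mem_maximalIdeal]
    constructor
    · intro h
      exact ⟨hTB t, h⟩
    · rintro ⟨_, h⟩
      exact h
  have h𝔓prime : 𝔓.IsPrime := Ideal.comap_isPrime φ _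
  have hyA' : y - algebraMap K F c ∈ A' :=
    sub_mem (Algebra.self_mem_adjoin_singleton K y) (Subalgebra.algebraMap_mem _ c)
  let t₀ : T := algebraMap A' T ⟨y - algebraMap K F c, hyA'⟩
  have ht₀ : algebraMap T F t₀ = y - algebraMap K F c := rfl
  have h𝔓ne : 𝔓 ≠ ⊥ := by
    intro hbot
    have h1 : t₀ ∈ 𝔓 := (h𝔓mem t₀).2 (by rw [ht₀]; exact hycB)
    rw [hbot, Ideal.mem_bot] at h1
    apply hyc0
    rw [← ht₀, h1, map_zero]
  let w : HeightOneSpectrum T := ⟨𝔓, h𝔓prime, h𝔓ne⟩
  have hPB : (Place.ofHeightOneSpectrum (K := K) (F := F) w).toValuationSubring = B := by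
    rw [Place.ofHeightOneSpectrum_toValuationSubring,
      ← HeightOneSpectrum.valuationSubringAtPrime_eq_valuationSubring]
    apply ValuationSubring.eq_of_le_of_ne_top _ _ hBtop
    intro x hx
    rw [HeightOneSpectrum.valuationSubringAtPrime_eq_valuationSubring] at hx
    obtain ⟨n, d, hnd⟩ := w.exists_primeCompl_mul_eq_of_integer x hx
    have hd : (d : T) ∉ 𝔓 := d.2
    have hd0 : algebraMap T F d ≠ 0 := by
      intro h
      apply hd
      rw [(map_eq_zero_iff _ (IsFractionRing.injective T F)).mp h]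
      exact 𝔓.zero_mem
    have hdinv : (algebraMap T F d)⁻¹ ∈ B :=
      hunitB _ (hTB d) (fun h => hd ((h𝔓mem d).2 h))
    have hx' : x = algebraMap T F n * (algebraMap T F d)⁻¹ := by
      rw [← hnd]
      field_simp
    rw [hx']
    exact mul_mem (hTB n) hdinv
  refine ⟨Place.ofHeightOneSpectrum (K := K) (F := F) w, fun f hf => ?_⟩
  rw [hPB]
  exact hB f hf

end Fermat.Agent.H54.ORD
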