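import Mathlib

/-!
# P-ORD, block B1, row B1-D-SURJ (helper54): abstract part I - going down to a horizontal prime

`K` a field, `A` a valuation subring of `K`, `F` an extension field of `K`, `y ∈ F`
transcendental over `K`.  `R = A[y] ⊆ F` (`sjPoly A y`), `S` the integral closure of `R` in `F`.

* `sjEquiv` : `A[X] ≃+* A[y]`, hence `A[y]` is integrally closed;
* `exists_horizontal_prime` : for a prime `n` of `S` containing `y - c` (`c ∈ A`) there is a prime
  `q ≤ n` of `S` containing `y - c` and no nonzero constant of `A` (GOING DOWN for the integral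
  extension `S / A[y]` of the integrally closed domain `A[y]`).
-/

set_option autoImplicit false
set_option linter.unusedSectionVars false
set_option linter.style.haveILetI false

noncomputable section

open Polynomial

namespace Fermat.Agent.H54.ORD

variable {K F : Type} [Field K] [Field F] [Algebra K F]

/-- the ring `A[y] ⊆ F` -/
def sjPoly (A : ValuationSubring K) (y : F) : Subring F :=
  Subring.closure ((fun c : K => algebraMap K F c) '' (A : Set K) ∪ {y})

/-- the evaluation map `A[X] → F`, `X ↦ y` -/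
def sjEval (A : ValuationSubring K) (y : F) : (↥A)[X] →+* F :=
  Polynomial.eval₂RingHom ((algebraMap K F).comp A.subtype) y

variable (A : ValuationSubring K) (y : F)

theorem sjEval_C (a : ↥A) : sjEval A y (C a) = algebraMap K F (a : K) := by
  simp [sjEval]

theorem sjEval_X : sjEval A y X = y := by
  simp [sjEval]

theorem sjEval_eq_aeval (p : (↥A)[X]) :
    sjEval A y p = aeval y (p.map A.subtype) := by
  rw [sjEval, Polynomial.coe_eval₂RingHom, aeval_def, eval₂_map]

theorem sjEval_injective (hy : Transcendental K y) : Function.Injective (sjEval A y) := by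
  rw [injective_iff_map_eq_zero]
  intro p hp
  rw [sjEval_eq_aeval] at hp
  by_contra hp0
  apply hy
  refine ⟨p.map A.subtype, ?_, hp⟩
  intro h
  apply hp0
  exact (Polynomial.map_eq_zero_iff A.subtype_injective).1 h

theorem algebraMap_mem_sjPoly {a : K} (ha : a ∈ A) : algebraMap K F a ∈ sjPoly A y :=
  Subring.subset_closure (Or.inl ⟨a, ha, rfl⟩)

theorem self_mem_sjPoly : y ∈ sjPoly A y :=
  Subring.subset_closure (Or.inr rfl)

theorem sjEval_mem (p : (↥A)[X]) : sjEval A y p ∈ sjPoly A y := by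
  induction p using Polynomial.induction_on' with
  | add p q hp hq =>
    rw [map_add]
    exact add_mem hp hq
  | monomial n a =>
    rw [← C_mul_X_pow_eq_monomial, map_mul, map_pow, sjEval_C, sjEval_X]
    exact mul_mem (algebraMap_mem_sjPoly A y a.2) (pow_mem (self_mem_sjPoly A y) n)

theorem sjEval_range : (sjEval A y).range = sjPoly A y := by
  apply le_antisymm
  · rintro _ ⟨p, rfl⟩
    exact sjEval_mem A y p
  · rw [sjPoly, Subring.closure_le]
    rintro x (⟨a, ha, rfl⟩ | hx)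
    · exact ⟨C ⟨a, ha⟩, sjEval_C A y ⟨a, ha⟩⟩
    · rw [Set.mem_singleton_iff] at hx
      rw [hx]
      exact ⟨X, sjEval_X A y⟩

/-- `A[X] → A[y]` -/
def sjEvalR : (↥A)[X] →+* ↥(sjPoly A y) :=
  (sjEval A y).codRestrict (sjPoly A y) (sjEval_mem A y)

theorem coe_sjEvalR (p : (↥A)[X]) : ((sjEvalR A y p : ↥(sjPoly A y)) : F) = sjEval A y p := rfl

theorem sjEvalR_bijective (hy : Transcendental K y) : Function.Bijective (sjEvalR A y) := by
  constructor
  · intro p q h
    apply sjEval_injective A y hy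
    exact congrArg Subtype.val h
  · rintro ⟨x, hx⟩
    rw [← sjEval_range] at hx
    obtain ⟨p, rfl⟩ := hx
    exact ⟨p, rfl⟩

/-- `A[X] ≃ A[y]` -/
def sjEquiv (hy : Transcendental K y) : (↥A)[X] ≃+* ↥(sjPoly A y) :=
  RingEquiv.ofBijective (sjEvalR A y) (sjEvalR_bijective A y hy)

theorem coe_sjEquiv (hy : Transcendental K y) (p : (↥A)[X]) :
    ((sjEquiv A y hy p : ↥(sjPoly A y)) : F) = sjEval A y p := rfl

theorem sjPoly_isIntegrallyClosed (hy : Transcendental K y) :
    IsIntegrallyClosed ↥(sjPoly A y) :=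
  IsIntegrallyClosed.of_equiv (sjEquiv A y hy)

section GoingDown

variable {A y}

theorem sjPoly_le {S : Subring F}
    (hS : ∀ f : F, f ∈ S ↔ (sjPoly A y).subtype.IsIntegralElem f) : sjPoly A y ≤ S :=
  fun r hr => (hS r).2 ((sjPoly A y).subtype.isIntegralElem_map (x := ⟨r, hr⟩))

/-- **GOING DOWN to a horizontal prime.** -/
theorem exists_horizontal_prime (hy : Transcendental K y) (S : Subring F)
    (hS : ∀ f : F, f ∈ S ↔ (sjPoly A y).subtype.IsIntegralElem f)
    (n : Ideal ↥S) [n.IsPrime] {c : K} (hc : c ∈ A)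
    (hn : ∀ h : y - algebraMap K F c ∈ S, (⟨_, h⟩ : ↥S) ∈ n) :
    ∃ q : Ideal ↥S, q.IsPrime ∧ q ≤ n ∧
      (∀ h : y - algebraMap K F c ∈ S, (⟨_, h⟩ : ↥S) ∈ q) ∧
      ∀ a : K, a ∈ A → a ≠ 0 → ∀ h : algebraMap K F a ∈ S, (⟨_, h⟩ : ↥S) ∉ q := by
  classical
  have hRS : sjPoly A y ≤ S := sjPoly_le hS
  letI : Algebra ↥(sjPoly A y) ↥S := (Subring.inclusion hRS).toAlgebra
  haveI : IsIntegrallyClosed ↥(sjPoly A y) := sjPoly_isIntegrallyClosed A y hy
  haveI : FaithfulSMul ↥(sjPoly A y) ↥S :=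
    (faithfulSMul_iff_algebraMap_injective _ _).2 (Subring.inclusion_injective hRS)
  haveI : Algebra.IsIntegral ↥(sjPoly A y) ↥S := ⟨fun s => by
    obtain ⟨p, hp, hps⟩ := (hS s).1 s.2
    refine ⟨p, hp, ?_⟩
    apply Subtype.ext
    have h1 := Polynomial.hom_eval₂ p (algebraMap ↥(sjPoly A y) ↥S) S.subtype s
    exact h1.trans hps⟩
  set e := sjEquiv A y hy with he_def
  haveI hspan : (Ideal.span {X - C (⟨c, hc⟩ : ↥A)} : Ideal (↥A)[X]).IsPrime :=
    (Ideal.span_singleton_prime (X_sub_C_ne_zero _)).2 (prime_X_sub_C _)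
  let p₁ : Ideal ↥(sjPoly A y) :=
    (Ideal.span {X - C (⟨c, hc⟩ : ↥A)}).comap (e.symm : ↥(sjPoly A y) →+* (↥A)[X])
  haveI : p₁.IsPrime := Ideal.comap_isPrime _ _
  have hyc : y - algebraMap K F c ∈ sjPoly A y :=
    sub_mem (self_mem_sjPoly A y) (algebraMap_mem_sjPoly A y hc)
  have he : e (X - C ⟨c, hc⟩) = ⟨y - algebraMap K F c, hyc⟩ :=
    Subtype.ext (by rw [coe_sjEquiv, map_sub, sjEval_X, sjEval_C])
  have hle : p₁ ≤ n.under ↥(sjPoly A y) := by
    intro r hr
    have hr1 : X - C (⟨c, hc⟩ : ↥A) ∣ e.symm r := Ideal.mem_span_singleton.1 hr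
    obtain ⟨g, hg⟩ := hr1
    have hr' : r = e (X - C ⟨c, hc⟩) * e g := by
      rw [← map_mul, ← hg, e.apply_symm_apply]
    rw [Ideal.under_def, Ideal.mem_comap, hr', map_mul, he]
    exact n.mul_mem_right _ (hn (hRS hyc))
  obtain ⟨q, hqn, hqprime, hqover⟩ :=
    Ideal.exists_ideal_le_liesOver_of_le (p := p₁) (q := n.under ↥(sjPoly A y)) n hle
  refine ⟨q, hqprime, hqn, ?_, ?_⟩
  · intro h
    have h1 : (⟨y - algebraMap K F c, hyc⟩ : ↥(sjPoly A y)) ∈ p₁ := by
      show e.symm _ ∈ Ideal.span {X - C (⟨c, hc⟩ : ↥A)}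
      rw [← he, e.symm_apply_apply]
      exact Ideal.mem_span_singleton_self _
    rw [hqover.over] at h1
    exact h1
  · intro a ha ha0 h hmem
    have h1 : (⟨algebraMap K F a, algebraMap_mem_sjPoly A y ha⟩ : ↥(sjPoly A y)) ∈ p₁ := by
      rw [hqover.over]
      exact hmem
    have h2 : e.symm ⟨algebraMap K F a, algebraMap_mem_sjPoly A y ha⟩ = C ⟨a, ha⟩ := by
      rw [RingEquiv.symm_apply_eq]
      exact Subtype.ext (by rw [coe_sjEquiv, sjEval_C])
    have h3 : X - C (⟨c, hc⟩ : ↥A) ∣ C (⟨a, ha⟩ : ↥A) := by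
      rw [← h2]
      exact Ideal.mem_span_singleton.1 h1
    obtain ⟨g, hg⟩ := h3
    have h4 := congrArg (Polynomial.eval (⟨c, hc⟩ : ↥A)) hg
    rw [eval_C, eval_mul, eval_sub, eval_X, eval_C, sub_self, zero_mul] at h4
    exact ha0 (congrArg Subtype.val h4)

end GoingDown

end Fermat.Agent.H54.ORD
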